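/-
S34lib (lead), block B7 step 7: **S34 from `UnipTors N p`** (project LSb).  Same assembly as S31
(`S31lib.ASM.s31_of_bricks`): the lattice family of points of the anemic Hecke algebra (LAT + PET),
the representations `S30⁺` attached to the points (unipotent on the inertia at `q ∥ N`), weak
Chebotarev, and the comparison `S34lib.charpoly_eq_of_family_unip`.
-/
import Fermat.Agent.S31lib.ASM.Final
import Fermat.Agent.S31lib.PET.Main
import Fermat.Agent.S31lib.LAT.Brick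
import Fermat.Agent.S34lib.Unip.S30Plus
import Fermat.Agent.S34lib.TC.Unip

set_option autoImplicit false
set_option linter.style.haveILetI false
set_option linter.unusedSectionVars false

noncomputable section

namespace Fermat.Agent.S34lib

open Polynomial CuspForm Fermat.Agent.S31lib.ASM

/-- `ℚ̄` -/
local notation "Qb" => AlgebraicClosure ℚ
/-- `G_ℚ` -/
local notation "GQ" => (AlgebraicClosure ℚ ≃ₐ[ℚ] AlgebraicClosure ℚ)

variable {p : ℕ} {N : ℕ} [NeZero N] {S : Finset ℕ}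
  {𝒪 : Type} [CommRing 𝒪] [IsDomain 𝒪] [IsDiscreteValuationRing 𝒪]
  [IsAdicComplete (IsLocalRing.maximalIdeal 𝒪) 𝒪]
  {θ : CuspForm.heckeAlgebra N 2 (↑S : Set ℕ) →+* IsLocalRing.ResidueField 𝒪}
  {T : Type} [CommRing T] [IsLocalRing T] [IsNoetherianRing T]
  [IsAdicComplete (IsLocalRing.maximalIdeal T) T] [Algebra 𝒪 T] [IsLocalHom (algebraMap 𝒪 T)]
  [Module.Finite 𝒪 T] [Module.Free 𝒪 T]

/-- **S34 from the blocks.** -/
theorem s34_of_bricks (hTr : BrickTransfer) (hWC : BrickWC) (hLAT : BrickLAT)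
    (hp : p.Prime) (hp𝒪 : (p : 𝒪) ∈ IsLocalRing.maximalIdeal 𝒪) (hpS : p ∈ S)
    (hNS : ∀ q : ℕ, q.Prime → q ∣ N → q ∈ S) (hU : UnipTors N p)
    (H : CuspForm.HeckeGaloisRepDatum N (↑S : Set ℕ) 𝒪 θ T)
    (q : ℕ) (hq : q.Prime) (hqp : q ≠ p) (hqN : q ∣ N) (hq2 : ¬ q ^ 2 ∣ N) :
    H.ρ.IsUnipotentOnInertiaAt q := by
  classical
  haveI : Fact p.Prime := ⟨hp⟩
  -- `p ∈ 𝔪_T`
  have hpT : (p : T) ∈ IsLocalRing.maximalIdeal T := by
    have h1 : (p : T) = algebraMap 𝒪 T (p : 𝒪) := (map_natCast _ p).symm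
    rw [h1]
    exact map_nonunit (algebraMap 𝒪 T) _ hp𝒪
  -- the points
  obtain ⟨ι, hι, O, i1, i2, i3, i4, i5, i6, χ, hpO, hlat⟩ := hLAT N S hNS p hp
  -- the S30⁺ representations
  have h30 := fun i => s30_unip p N hU S hpS hNS (O i) (hpO i) (χ i)
  choose R j1 j2 j3 j4 j5 j6 j7 j8 j9 hinj ρ' hchar hunr hunip using h30
  -- the good primes and the Hecke operators
  set good : ℕ → Prop := fun ℓ => ℓ.Prime ∧ ¬ ℓ ∣ N ∧ ℓ ∉ (↑S : Set ℕ) with hgood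
  set t : ℕ → CuspForm.heckeAlgebra N 2 (↑S : Set ℕ) := fun ℓ =>
    if h : ℓ.Prime ∧ ¬ ℓ ∣ N ∧ ℓ ∉ (↑S : Set ℕ) then CuspForm.heckeAlgebra.T h.1 h.2.1 h.2.2 else 0
    with ht
  have ht_good : ∀ ℓ (h : good ℓ), t ℓ = CuspForm.heckeAlgebra.T h.1 h.2.1 h.2.2 := by
    intro ℓ h
    rw [ht]
    exact dif_pos h
  have hp0 : ∀ i, (p : O i) ≠ 0 := fun i => Nat.cast_ne_zero.mpr hp.ne_zero
  have hpR0 : ∀ i, (p : R i) ≠ 0 := fun i => Nat.cast_ne_zero.mpr hp.ne_zero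
  have hpR : ∀ i, (p : R i) ∈ IsLocalRing.maximalIdeal (R i) := by
    intro i
    have h1 : (p : R i) = algebraMap (O i) (R i) (p : O i) := (map_natCast _ p).symm
    rw [h1]
    exact map_nonunit (algebraMap (O i) (R i)) _ (hpO i)
  have hlat' := hTr (p := p) O R hinj hp0 χ hlat
  intro P hP τ hτ
  refine charpoly_eq_of_family_unip hp hpT H.π H.ρ good t ?_ R hpR hpR0
    (fun i => (algebraMap (O i) (R i)).comp (χ i)) ρ' ?_ hlat' ?_ τ ?_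
  · intro ℓ hℓ A hA φ hφ
    rw [ht_good ℓ hℓ]
    exact H.charpoly_frob ℓ hℓ.1 hℓ.2.1 hℓ.2.2 A hA φ hφ
  · intro i ℓ hℓ A hA φ hφ
    rw [ht_good ℓ hℓ]
    exact hchar i ℓ hℓ.1 hℓ.2.1 hℓ.2.2 A hA φ hφ
  · intro L hL σ
    obtain ⟨ℓ, A, φ, j, hℓ, hℓS₀, hA, hφ, hj⟩ := hWC (S ∪ N.primeFactors) L hL σ
    refine ⟨ℓ, A, φ, j, ⟨hℓ, ?_, ?_⟩, hA, hφ, hj⟩
    · intro hdvd
      exact hℓS₀ (Finset.mem_union_right _
        (Nat.mem_primeFactors.mpr ⟨hℓ, hdvd, NeZero.ne N⟩))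
    · intro hS
      exact hℓS₀ (Finset.mem_union_left _ (Finset.mem_coe.mp hS))
  · intro i
    exact hunip i q hq hqp hqN hq2 P hP τ hτ

/-- **S34 from `UnipTors N p`** (all the other blocks are discharged). -/
theorem s34_of_unipTors (hp : p.Prime) (hp𝒪 : (p : 𝒪) ∈ IsLocalRing.maximalIdeal 𝒪)
    (hpS : p ∈ S) (hNS : ∀ q : ℕ, q.Prime → q ∣ N → q ∈ S) (hU : UnipTors N p)
    (H : CuspForm.HeckeGaloisRepDatum N (↑S : Set ℕ) 𝒪 θ T)
    (q : ℕ) (hq : q.Prime) (hqp : q ≠ p) (hqN : q ∣ N) (hq2 : ¬ q ^ 2 ∣ N) :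
    H.ρ.IsUnipotentOnInertiaAt q :=
  s34_of_bricks brickTransfer brickWC
    (brickLAT_of (fun _ _ _ hNS' => Fermat.Agent.S31lib.PET.isReduced_heckeAlgebra' hNS')
      (fun N' _ S' hred p' hp' => Fermat.Agent.S31lib.LAT.brickLAT_of_isReduced N' S' hred p' hp'))
    hp hp𝒪 hpS hNS hU H q hq hqp hqN hq2

end Fermat.Agent.S34lib
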